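import Fermat.Agent.KLB.Mod.Main
import Fermat.Agent.GAL.KLLevel
import Fermat.Agent.S28.Analytic.Assembly
import Fermat.Agent.S28.Analytic.GenInterp

/-!
# KL-B: the key lemma `KLStatement`
-/

set_option autoImplicit false

namespace Fermat.Agent.KLB

open Fermat.Agent.S18 Fermat.Agent.S28

theorem klStatement : GAL.KLStatement := by
  refine GAL.KLStatement_of_special ?_
  intro N _ ℓ hℓ hℓN h3 h2 A hA n hn
  obtain ⟨U⟩ := exists_UData_of_generation N ℓ hℓN
    (fun D d _ hd => GenInterp.generation N ℓ D d hd)
  have hD : Nonempty (BaseData N ℓ) := by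
    by_cases e3 : ℓ = 3
    · subst e3
      exact Base.nonempty_baseData_h2 N (h3 rfl)
    by_cases e2 : ℓ = 2
    · subst e2
      exact Base.nonempty_baseData_h3 N (h2 rfl)
    refine Base.nonempty_baseData_j N ℓ hℓ.out ?_
    have hp := hℓ.out
    have h2' := hp.two_le
    by_contra hlt
    have : ℓ = 4 := by omega
    subst this
    exact absurd hp (by decide)
  obtain ⟨D⟩ := hD
  exact Mod.kl_of_base D U A hA n hn

end Fermat.Agent.KLB
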